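/-
GATE-P / S56, node S56-SEL-AD0REP (helper94): **`ad⁰ρ̄(χ)` as an object of `Rep (ZMod p) GQ`**, in the
exact shape consumed by the GC/GW Selmer model (`GP/GW/Model.lean`: any `Rep (ZMod p) GQ` +
`IsDiscrete (levelS S)` + `FiniteDimensional`) and by `GP/Tan/SelmerGlobal.selmerBound_of_local`
(`emb`, `hinj`, `hsurj`, `hact`).

`R : GQ →* Matrix (Fin 2) (Fin 2) k` is a matrix form of `ρ̄` (e.g. `toMatRes ρbar b`),
`χ : GQ →* (ZMod p)ˣ` a twist (`1`, or `cycloChar p`); `k` any `𝔽_p`-algebra field.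

* `sl2F p` : traceless matrices, as an `𝔽_p`-submodule; `adRho p R χ`, `adRep p R χ` with
  `σ · X = χ σ • R σ X R σ⁻¹` (`adRho_apply`);
* `finite_sl2F`, `finiteDimensional_adRep` (`[Finite k]`);
* `adRep_smooth`, `isDiscrete_adRep S χ hR hχ hRur hχur : IsDiscrete (levelS S) (adRep p R χ)`
  (`R`, `χ` trivial on an open subgroup and on all inertia groups outside `S`);
* `trPair`, `trEquiv`, **`dualTwistIso p R hp2 χ : adRep p R χ ≅ (adRep p R 1).dualTwist χ`**
  (trace pairing `X, Y ↦ Tr_{k/𝔽_p} tr (X Y)`; same statement as helper55's `GP/TW/TrDualRep.adDualIso`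
  for `R : G →* M₂(k)ˣ`, kept here for `R` valued in `Matrix`);
* function forms: `mem_cocycles₁_adRep_iff`, `mem_lcCocycles₁_adRep_iff`,
  `mem_coboundaries₁_adRep_iff`, `mem_invariants_adRep_iff`.
NEW file, own namespace; imports only.
-/
import Mathlib
import Fermat.Prelude.Def_GroupCohomology_Selmer
import Fermat.Prelude.Def_ExtCitation_KummerBridge
import Fermat.Agent.GC.Prof.Basic
import Fermat.Agent.GC.Prof.Low
import Fermat.Agent.GC.C0.Level
import Fermat.Agent.GC.C0.Dual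

set_option autoImplicit false

noncomputable section

namespace Fermat.Agent.GP.Bridge.Ad0

open Fermat.Agent.GC.Prof Fermat.Agent.GC.C0 Module

/-! ### traceless matrices -/

/-- the traceless `2 × 2` matrices, as a `k`-submodule -/
def sl2 (k : Type) [Field k] : Submodule k (Matrix (Fin 2) (Fin 2) k) :=
  LinearMap.ker (Matrix.traceLinearMap (Fin 2) k k)

theorem mem_sl2 {k : Type} [Field k] {X : Matrix (Fin 2) (Fin 2) k} :
    X ∈ sl2 k ↔ X.trace = 0 := by
  rw [sl2, LinearMap.mem_ker, Matrix.traceLinearMap_apply]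

variable (p : ℕ) [Fact p.Prime] {k : Type} [Field k] [Algebra (ZMod p) k]

/-- the traceless matrices as an `𝔽_p`-submodule (same carrier) -/
def sl2F : Submodule (ZMod p) (Matrix (Fin 2) (Fin 2) k) := (sl2 k).restrictScalars (ZMod p)

theorem mem_sl2F {X : Matrix (Fin 2) (Fin 2) k} : X ∈ sl2F p (k := k) ↔ X.trace = 0 := by
  rw [sl2F, Submodule.restrictScalars_mem, mem_sl2]

variable {p}
variable (R : GQ →* Matrix (Fin 2) (Fin 2) k)

theorem R_mul_inv (σ : GQ) : R σ * R σ⁻¹ = 1 := by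
  rw [← map_mul, mul_inv_cancel, map_one]

theorem R_inv_mul (σ : GQ) : R σ⁻¹ * R σ = 1 := by
  rw [← map_mul, inv_mul_cancel, map_one]

theorem trace_conj (σ : GQ) (X : Matrix (Fin 2) (Fin 2) k) :
    (R σ * X * R σ⁻¹).trace = X.trace := by
  rw [Matrix.trace_mul_cycle, R_inv_mul, Matrix.one_mul]

variable (p)

/-- conjugation by `R σ` on the traceless matrices, `𝔽_p`-linear -/
def conjF (σ : GQ) : sl2F p (k := k) →ₗ[ZMod p] sl2F p (k := k) where
  toFun X := ⟨R σ * X.1 * R σ⁻¹, (mem_sl2F p).2 (by rw [trace_conj, (mem_sl2F p).1 X.2])⟩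
  map_add' X Y := by
    apply Subtype.ext
    show R σ * (X.1 + Y.1) * R σ⁻¹ = R σ * X.1 * R σ⁻¹ + R σ * Y.1 * R σ⁻¹
    rw [Matrix.mul_add, Matrix.add_mul]
  map_smul' c X := by
    apply Subtype.ext
    show R σ * (c • X.1) * R σ⁻¹ = c • (R σ * X.1 * R σ⁻¹)
    rw [Matrix.mul_smul, Matrix.smul_mul]

theorem conjF_apply (σ : GQ) (X : sl2F p (k := k)) :
    ((conjF p R σ X : sl2F p (k := k)) : Matrix (Fin 2) (Fin 2) k) = R σ * X.1 * R σ⁻¹ := rfl

theorem conjF_one : conjF p R 1 = 1 := by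
  apply LinearMap.ext
  intro X
  apply Subtype.ext
  rw [conjF_apply, inv_one, map_one, Matrix.one_mul, Matrix.mul_one]
  rfl

theorem conjF_mul (σ τ : GQ) : conjF p R (σ * τ) = conjF p R σ * conjF p R τ := by
  apply LinearMap.ext
  intro X
  apply Subtype.ext
  rw [Module.End.mul_apply, conjF_apply, conjF_apply, conjF_apply, mul_inv_rev, map_mul, map_mul]
  simp only [Matrix.mul_assoc]

/-- the (twisted) adjoint representation on traceless matrices:
`σ · X = χ(σ) • R σ X R σ⁻¹`, as a representation over `𝔽_p`. -/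
def adRho (χ : GQ →* (ZMod p)ˣ) : Representation (ZMod p) GQ (sl2F p (k := k)) where
  toFun σ := ((χ σ : (ZMod p)ˣ) : ZMod p) • conjF p R σ
  map_one' := by rw [map_one, Units.val_one, one_smul, conjF_one]
  map_mul' σ τ := by
    rw [map_mul, Units.val_mul, conjF_mul, smul_mul_smul_comm]

/-- **the coefficient object**: `ad⁰ ⊗ χ` as an object of `Rep (ZMod p) G_ℚ`. -/
abbrev adRep (χ : GQ →* (ZMod p)ˣ) : Rep (ZMod p) GQ := Rep.of (adRho p R χ)

theorem adRho_apply (χ : GQ →* (ZMod p)ˣ) (σ : GQ) (X : sl2F p (k := k)) :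
    ((adRho p R χ σ X : sl2F p (k := k)) : Matrix (Fin 2) (Fin 2) k)
      = ((χ σ : (ZMod p)ˣ) : ZMod p) • (R σ * X.1 * R σ⁻¹) := rfl

theorem adRep_ρ (χ : GQ →* (ZMod p)ˣ) : (adRep p R χ).ρ = adRho p R χ := rfl

theorem adRho_eq_one_of (χ : GQ →* (ZMod p)ˣ) {s : GQ} (hs₁ : R s = 1) (hs₂ : χ s = 1) :
    adRho p R χ s = 1 := by
  have hsi : R s⁻¹ = 1 := by
    have := R_inv_mul R s
    rwa [hs₁, Matrix.mul_one] at this
  apply LinearMap.ext
  intro X
  apply Subtype.ext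
  rw [adRho_apply, hs₁, hs₂, hsi, Units.val_one, one_smul, Matrix.one_mul, Matrix.mul_one]
  rfl

/-! ### finiteness, discreteness -/

instance finite_sl2F [Finite k] : Module.Finite (ZMod p) (sl2F p (k := k)) := by
  have : Module.Finite (ZMod p) k := Module.Finite.of_finite
  infer_instance

instance finiteDimensional_adRep [Finite k] (χ : GQ →* (ZMod p)ˣ) :
    FiniteDimensional (ZMod p) (adRep p R χ) :=
  finite_sl2F p

/-- `adRep` is smooth: killed by an open subgroup, as soon as `R` and `χ` have finite level. -/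
theorem adRep_smooth (χ : GQ →* (ZMod p)ˣ) (hR : GaloisFactorsThroughFiniteLevel R)
    (hχ : GaloisFactorsThroughFiniteLevel χ) :
    ∃ F : IntermediateField ℚ Qbar, FiniteDimensional ℚ F ∧
      ∀ s ∈ F.fixingSubgroup, (adRep p R χ).ρ s = 1 := by
  obtain ⟨L₁, hL₁, h₁⟩ := hR
  obtain ⟨L₂, hL₂, h₂⟩ := hχ
  refine ⟨L₁ ⊔ L₂, IntermediateField.finiteDimensional_sup _ _, fun s hs => ?_⟩
  have hs₁ : R s = 1 := h₁ s fun x hx =>
    (IntermediateField.mem_fixingSubgroup_iff _ s).1 hs x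
      ((le_sup_left : L₁ ≤ L₁ ⊔ L₂) hx)
  have hs₂ : χ s = 1 := h₂ s fun x hx =>
    (IntermediateField.mem_fixingSubgroup_iff _ s).1 hs x
      ((le_sup_right : L₂ ≤ L₁ ⊔ L₂) hx)
  exact adRho_eq_one_of p R χ hs₁ hs₂

/-- **`adRep R χ` is discrete for `levelS S`** when `R`, `χ` have finite level and are trivial on
the inertia groups at the primes outside `S`. -/
theorem isDiscrete_adRep (S : Finset Nat.Primes) (χ : GQ →* (ZMod p)ˣ)
    (hR : GaloisFactorsThroughFiniteLevel R) (hχ : GaloisFactorsThroughFiniteLevel χ)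
    (hRur : ∀ q : Nat.Primes, q ∉ S → ∀ A : ValuationSubring Qbar,
      A.LiesOverPrime (q : ℕ) → ∀ g ∈ A.inertiaSubgroupIn ℚ, R g = 1)
    (hχur : ∀ q : Nat.Primes, q ∉ S → ∀ A : ValuationSubring Qbar,
      A.LiesOverPrime (q : ℕ) → ∀ g ∈ A.inertiaSubgroupIn ℚ, χ g = 1) :
    IsDiscrete (levelS S) (adRep p R χ) := by
  obtain ⟨F, hF, hFs⟩ := adRep_smooth p R χ hR hχ
  refine isDiscrete_levelS S (adRep p R χ) (fun m => ⟨F, hF, fun s hs => ?_⟩)
    (fun q hq A hA g hg => adRho_eq_one_of p R χ (hRur q hq A hA g hg) (hχur q hq A hA g hg))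
  rw [hFs s hs]
  rfl

/-! ### the trace pairing -/

/-- the trace pairing `⟨X, Y⟩ = Tr_{k/𝔽_p} (tr (X Y))` on traceless matrices, as a map to the dual:
`trPair Y = ⟨·, Y⟩`. -/
def trPair : sl2F p (k := k) →ₗ[ZMod p] Module.Dual (ZMod p) (sl2F p (k := k)) :=
  LinearMap.mk₂ (ZMod p)
    (fun (Y X : sl2F p (k := k)) => Algebra.trace (ZMod p) k (Matrix.trace (X.1 * Y.1)))
    (fun Y₁ Y₂ X => by
      show Algebra.trace (ZMod p) k (Matrix.trace (X.1 * (Y₁.1 + Y₂.1))) = _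
      rw [Matrix.mul_add, Matrix.trace_add, map_add])
    (fun c Y X => by
      show Algebra.trace (ZMod p) k (Matrix.trace (X.1 * (c • Y.1))) = _
      rw [Matrix.mul_smul, Matrix.trace_smul, map_smul])
    (fun Y X₁ X₂ => by
      show Algebra.trace (ZMod p) k (Matrix.trace ((X₁.1 + X₂.1) * Y.1)) = _
      rw [Matrix.add_mul, Matrix.trace_add, map_add])
    (fun c Y X => by
      show Algebra.trace (ZMod p) k (Matrix.trace ((c • X.1) * Y.1)) = _
      rw [Matrix.smul_mul, Matrix.trace_smul, map_smul])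

theorem trPair_apply (Y X : sl2F p (k := k)) :
    trPair p Y X = Algebra.trace (ZMod p) k (Matrix.trace (X.1 * Y.1)) := rfl

theorem two_ne_zero_of_odd (hp2 : p ≠ 2) : (2 : k) ≠ 0 := by
  have h2 : (2 : ZMod p) ≠ 0 := by
    intro h
    have h' : ((2 : ℕ) : ZMod p) = 0 := by exact_mod_cast h
    rw [ZMod.natCast_eq_zero_iff] at h'
    exact hp2 ((Nat.prime_dvd_prime_iff_eq Fact.out Nat.prime_two).mp h')
  intro h
  apply h2
  apply (algebraMap (ZMod p) k).injective
  rw [map_ofNat, map_zero]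
  exact h

/-- a traceless matrix orthogonal (for `tr (X Y)`) to all traceless matrices is zero (`2 ≠ 0`). -/
theorem eq_zero_of_trace_mul_eq_zero (h2 : (2 : k) ≠ 0) (Y : Matrix (Fin 2) (Fin 2) k)
    (hY : Y.trace = 0) (h : ∀ X : Matrix (Fin 2) (Fin 2) k, X.trace = 0 → (X * Y).trace = 0) :
    Y = 0 := by
  have hE := h !![0, 1; 0, 0] (by simp [Matrix.trace_fin_two])
  have hF := h !![0, 0; 1, 0] (by simp [Matrix.trace_fin_two])
  have hH := h !![1, 0; 0, -1] (by simp [Matrix.trace_fin_two])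
  rw [Matrix.trace_fin_two] at hY
  rw [Matrix.eta_fin_two Y, Matrix.mul_fin_two, Matrix.trace_fin_two] at hE hF hH
  simp at hE hF hH
  have h00 : Y 0 0 = 0 := by
    have : (2 : k) * Y 0 0 = 0 := by linear_combination hY + hH
    exact (mul_eq_zero.mp this).resolve_left h2
  have h11 : Y 1 1 = 0 := by rw [h00, zero_add] at hY; exact hY
  rw [Matrix.eta_fin_two Y, h00, h11, hE, hF]
  ext i j
  fin_cases i <;> fin_cases j <;> rfl

theorem trPair_injective [Finite k] (hp2 : p ≠ 2) : Function.Injective (trPair p (k := k)) := by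
  rw [← LinearMap.ker_eq_bot, LinearMap.ker_eq_bot']
  intro Y hY
  have h2 := two_ne_zero_of_odd p (k := k) hp2
  have : Module.Finite (ZMod p) k := Module.Finite.of_finite
  apply Subtype.ext
  show Y.1 = 0
  refine eq_zero_of_trace_mul_eq_zero h2 Y.1 ((mem_sl2F p).1 Y.2) (fun X hX => ?_)
  -- the `k`-line through `tr (X Y)` is killed by `Tr`
  have hnd := traceForm_nondegenerate (ZMod p) k
  have key : ∀ c : k, Algebra.traceForm (ZMod p) k (Matrix.trace (X * Y.1)) c = 0 := by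
    intro c
    have hcX : (c • X) ∈ sl2F p (k := k) := by
      rw [mem_sl2F, Matrix.trace_smul, hX, smul_zero]
    have := congrArg (fun f : Module.Dual (ZMod p) (sl2F p (k := k)) => f ⟨c • X, hcX⟩) hY
    simp only [LinearMap.zero_apply] at this
    rw [trPair_apply] at this
    rw [Algebra.traceForm_apply]
    rw [← this]
    congr 1
    show Matrix.trace (X * Y.1) * c = Matrix.trace ((c • X) * Y.1)
    rw [Matrix.smul_mul, Matrix.trace_smul, smul_eq_mul, mul_comm]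
  exact hnd.1 _ key

/-- the trace pairing as a linear equivalence `sl2F ≃ (sl2F)^∨` (`p` odd, `k` finite). -/
def trEquiv [Finite k] (hp2 : p ≠ 2) :
    sl2F p (k := k) ≃ₗ[ZMod p] Module.Dual (ZMod p) (sl2F p (k := k)) :=
  LinearEquiv.ofBijective (trPair p)
    ⟨trPair_injective p hp2,
      (LinearMap.injective_iff_surjective_of_finrank_eq_finrank
        (Subspace.dual_finrank_eq (K := ZMod p) (V := sl2F p (k := k))).symm).1
        (trPair_injective p hp2)⟩

theorem trEquiv_apply [Finite k] (hp2 : p ≠ 2) (Y X : sl2F p (k := k)) :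
    trEquiv p hp2 Y X = Algebra.trace (ZMod p) k (Matrix.trace (X.1 * Y.1)) := rfl

/-- equivariance of the trace pairing: `⟨X, χ(σ)·σYσ⁻¹⟩ = χ(σ)·⟨σ⁻¹Xσ, Y⟩`. -/
theorem trPair_adRho (χ : GQ →* (ZMod p)ˣ) (σ : GQ) (Y X : sl2F p (k := k)) :
    trPair p (adRho p R χ σ Y) X
      = ((χ σ : (ZMod p)ˣ) : ZMod p) • trPair p Y (adRho p R 1 σ⁻¹ X) := by
  rw [trPair_apply, trPair_apply, adRho_apply, adRho_apply, MonoidHom.one_apply, Units.val_one,
    one_smul, inv_inv, Matrix.mul_smul, Matrix.trace_smul, map_smul]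
  congr 2
  -- `tr (X · σ Y σ⁻¹) = tr (σ⁻¹ X σ · Y)`
  rw [← Matrix.mul_assoc, ← Matrix.mul_assoc, Matrix.trace_mul_comm (X.1 * R σ * Y.1) (R σ⁻¹),
    ← Matrix.mul_assoc, ← Matrix.mul_assoc]

/-- the trace pairing as an equivalence of representations
`ad⁰ ⊗ χ ≃ (ad⁰)^∨ ⊗ χ` (Prelude `Representation.dual`, `Representation.twist`). -/
def dualTwistEquiv [Finite k] (hp2 : p ≠ 2) (χ : GQ →* (ZMod p)ˣ) :
    Representation.Equiv (adRho p R χ) ((adRho p R 1).dual.twist χ) :=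
  Representation.Equiv.mk (trEquiv p hp2) (fun g => by
    apply LinearMap.ext
    intro Y
    apply LinearMap.ext
    intro X
    show trPair p (adRho p R χ g Y) X
      = (((χ g : (ZMod p)ˣ) : ZMod p) • ((adRho p R 1).dual g (trPair p Y))) X
    rw [trPair_adRho]
    rfl)

/-- **Tate duality of the coefficients**: `ad⁰ ⊗ χ ≅ (ad⁰).dualTwist χ` in `Rep (ZMod p) G_ℚ`
(for `χ = cycloChar p` : `ad⁰ρ̄(1) ≅ (ad⁰ρ̄)^*`, the module `N*` of Poitou–Tate). -/
def dualTwistIso [Finite k] (hp2 : p ≠ 2) (χ : GQ →* (ZMod p)ˣ) :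
    adRep p R χ ≅ (adRep p R 1).dualTwist χ :=
  Rep.mkIso (dualTwistEquiv p R hp2 χ)

theorem dualTwistIso_hom_apply [Finite k] (hp2 : p ≠ 2) (χ : GQ →* (ZMod p)ˣ)
    (Y X : sl2F p (k := k)) :
    ((dualTwistIso p R hp2 χ).hom.hom Y : Module.Dual (ZMod p) (sl2F p (k := k))) X
      = Algebra.trace (ZMod p) k (Matrix.trace (X.1 * Y.1)) := rfl

/-! ### cocycles and invariants in function / matrix form -/

/-- a traceless-matrix-valued function as a function into the carrier of `adRep`. -/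
def toSl (c : GQ → Matrix (Fin 2) (Fin 2) k) (hc : ∀ σ, (c σ).trace = 0) :
    GQ → sl2F p (k := k) := fun σ => ⟨c σ, (mem_sl2F p).2 (hc σ)⟩

theorem toSl_val (c : GQ → Matrix (Fin 2) (Fin 2) k) (hc : ∀ σ, (c σ).trace = 0) (σ : GQ) :
    ((toSl p c hc σ : sl2F p (k := k)) : Matrix (Fin 2) (Fin 2) k) = c σ := rfl

/-- **1-cocycles of `adRep R χ` in function form**:
`z (σ τ) = z σ + χ(σ) • R σ (z τ) R σ⁻¹` (for `χ = 1` this is `tanCocycle_mul` of `GP/Tan/Cocycle`,
in general the `IsCocycle act c` of `GP/TW/TWPrime` with `act := (adRep R χ).ρ`). -/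
theorem mem_cocycles₁_adRep_iff (χ : GQ →* (ZMod p)ˣ) (z : GQ → sl2F p (k := k)) :
    (z : GQ → adRep p R χ) ∈ groupCohomology.cocycles₁ (adRep p R χ) ↔
      ∀ σ τ : GQ, (z (σ * τ)).1
        = (z σ).1 + ((χ σ : (ZMod p)ˣ) : ZMod p) • (R σ * (z τ).1 * R σ⁻¹) := by
  rw [groupCohomology.mem_cocycles₁_iff]
  constructor
  · intro h σ τ
    have := congrArg (fun x : sl2F p (k := k) => x.1) (h σ τ)
    rw [this]
    show ((adRho p R χ σ (z τ) + z σ : sl2F p (k := k)) : Matrix (Fin 2) (Fin 2) k) = _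
    rw [Submodule.coe_add, adRho_apply, add_comm]
  · intro h σ τ
    apply Subtype.ext
    rw [h σ τ]
    show _ = ((adRho p R χ σ (z τ) + z σ : sl2F p (k := k)) : Matrix (Fin 2) (Fin 2) k)
    rw [Submodule.coe_add, adRho_apply, add_comm]

/-- level-constancy can be tested on the matrix values. -/
theorem isLC₁_toSl_iff {G : Type} [Group G] (𝒰 : LevelSystem G) (z : G → sl2F p (k := k)) :
    IsLC₁ 𝒰 z ↔ IsLC₁ 𝒰 (fun σ => (z σ).1) := by
  constructor
  · rintro ⟨U, hU, h⟩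
    exact ⟨U, hU, fun g s hs => congrArg Subtype.val (h g s hs)⟩
  · rintro ⟨U, hU, h⟩
    exact ⟨U, hU, fun g s hs => Subtype.ext (h g s hs)⟩

/-- **level-constant 1-cocycles of `adRep R χ` in function form** -/
theorem mem_lcCocycles₁_adRep_iff (𝒰 : LevelSystem GQ) (χ : GQ →* (ZMod p)ˣ)
    [IsDiscrete 𝒰 (adRep p R χ)] (z : GQ → sl2F p (k := k)) :
    (z : GQ → adRep p R χ) ∈ lcCocycles₁ 𝒰 (adRep p R χ) ↔
      (∀ σ τ : GQ, (z (σ * τ)).1
        = (z σ).1 + ((χ σ : (ZMod p)ˣ) : ZMod p) • (R σ * (z τ).1 * R σ⁻¹)) ∧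
      IsLC₁ 𝒰 (fun σ => (z σ).1) := by
  rw [mem_lcCocycles₁_iff, mem_cocycles₁_adRep_iff, ← isLC₁_toSl_iff]

/-- 1-coboundaries of `adRep R χ` in function form. -/
theorem mem_coboundaries₁_adRep_iff (χ : GQ →* (ZMod p)ˣ) (z : GQ → sl2F p (k := k)) :
    (z : GQ → adRep p R χ) ∈ groupCohomology.coboundaries₁ (adRep p R χ) ↔
      ∃ m : sl2F p (k := k), ∀ σ : GQ, (z σ).1
        = ((χ σ : (ZMod p)ˣ) : ZMod p) • (R σ * m.1 * R σ⁻¹) - m.1 := by
  constructor
  · rintro ⟨m, hm⟩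
    refine ⟨m, fun σ => ?_⟩
    have := congrFun hm σ
    rw [← this]
    rfl
  · rintro ⟨m, hm⟩
    refine ⟨m, funext fun σ => Subtype.ext ?_⟩
    rw [hm σ]
    rfl

/-- invariants of `adRep R χ` in matrix form. -/
theorem mem_invariants_adRep_iff (χ : GQ →* (ZMod p)ˣ) (X : sl2F p (k := k)) :
    (X : adRep p R χ) ∈ (adRep p R χ).ρ.invariants ↔
      ∀ σ : GQ, ((χ σ : (ZMod p)ˣ) : ZMod p) • (R σ * X.1 * R σ⁻¹) = X.1 := by
  rw [Representation.mem_invariants]
  constructor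
  · intro h σ
    have := congrArg (fun x : sl2F p (k := k) => x.1) (h σ)
    exact this
  · intro h σ
    exact Subtype.ext (h σ)

end Fermat.Agent.GP.Bridge.Ad0
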