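/-
GATE-P / S56, node S56-SEL-AD0REP part 2 (helper94): **the concrete model `N := ad⁰ρ̄` for a
`ResidualGaloisRep`**, in the shapes of `GP/Tan/SelmerGlobal` (`emb`, `hinj`, `hsurj`, `hact`) and of
`GP/GW/Model` (`IsDiscrete (levelS S)`, `N* = N.dualTwist (cycloChar p)`).

* `emb p R χ : adRep p R χ →+ Matrix (Fin 2) (Fin 2) k`, `emb_injective`, `emb_surjective`
  (onto trace zero), `trace_emb`, `emb_ρ`, `emb_ρ_one`;
* `adBar p ρbar b := adRep p (toMatRes ρbar b) 1`, `adBarTw p ρbar b := adRep p (toMatRes ρbar b) (cycloChar p)`;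
* `isDiscrete_adBar S hur`, `isDiscrete_adBarTw S hpS hur` (`hur`: `ρ̄` unramified outside `S`);
* `adBarTwIso hp2 : adBarTw p ρbar b ≅ (adBar p ρbar b).dualTwist (cycloChar p)`.
NEW file, imports only.
-/
import Fermat.Agent.GP.Bridge.Ad0Rep
import Fermat.Agent.S53_helper35.MatDict

set_option autoImplicit false

noncomputable section

namespace Fermat.Agent.GP.Bridge.Ad0

open Fermat.Agent.GC.Prof Fermat.Agent.GC.C0 Module ExtCitation Fermat.Agent.S53_helper35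

variable (p : ℕ) [Fact p.Prime] {k : Type} [Field k] [Algebra (ZMod p) k]

/-! ### the embedding into matrices -/

variable (R : Fermat.Agent.GC.C0.GQ →* Matrix (Fin 2) (Fin 2) k)

/-- the inclusion of `adRep R χ` into the matrices, as an additive map (the `emb` of
`GP/Tan/SelmerGlobal`). -/
def emb (χ : Fermat.Agent.GC.C0.GQ →* (ZMod p)ˣ) : adRep p R χ →+ Matrix (Fin 2) (Fin 2) k :=
  (sl2F p (k := k)).subtype.toAddMonoidHom

theorem emb_apply (χ : Fermat.Agent.GC.C0.GQ →* (ZMod p)ˣ) (X : sl2F p (k := k)) :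
    emb p R χ (X : adRep p R χ) = X.1 := rfl

theorem emb_injective (χ : Fermat.Agent.GC.C0.GQ →* (ZMod p)ˣ) : Function.Injective (emb p R χ) :=
  fun _ _ h => Subtype.ext h

theorem emb_surjective (χ : Fermat.Agent.GC.C0.GQ →* (ZMod p)ˣ) (X : Matrix (Fin 2) (Fin 2) k)
    (hX : X.trace = 0) : ∃ x : adRep p R χ, emb p R χ x = X :=
  ⟨(⟨X, (mem_sl2F p).2 hX⟩ : sl2F p (k := k)), rfl⟩

theorem trace_emb (χ : Fermat.Agent.GC.C0.GQ →* (ZMod p)ˣ) (x : adRep p R χ) :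
    (emb p R χ x).trace = 0 :=
  (mem_sl2F p).1 (x : sl2F p (k := k)).2

theorem emb_ρ (χ : Fermat.Agent.GC.C0.GQ →* (ZMod p)ˣ) (σ : Fermat.Agent.GC.C0.GQ) (x : adRep p R χ) :
    emb p R χ ((adRep p R χ).ρ σ x)
      = ((χ σ : (ZMod p)ˣ) : ZMod p) • (R σ * emb p R χ x * R σ⁻¹) :=
  adRho_apply p R χ σ x

theorem emb_ρ_one (σ : Fermat.Agent.GC.C0.GQ) (x : adRep p R 1) :
    emb p R 1 ((adRep p R 1).ρ σ x) = R σ * emb p R 1 x * R σ⁻¹ := by
  rw [emb_ρ, MonoidHom.one_apply, Units.val_one, one_smul]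

/-! ### instantiation at a residual representation -/

section Residual

variable {p}
variable (ρbar : ResidualGaloisRep k) (b : Module.Basis (Fin 2) k ρbar.V)

theorem factors_toMatRes : GaloisFactorsThroughFiniteLevel (toMatRes ρbar b) :=
  resCont_toMatRes ρbar b

theorem toMatRes_eq_one_of_ρ_eq_one {σ : Fermat.Agent.GC.C0.GQ} (h : ρbar.ρ σ = 1) :
    toMatRes ρbar b σ = 1 := by
  rw [toMatRes_apply, h]
  exact LinearMap.toMatrix_one b

theorem toMatRes_inertia (S : Finset Nat.Primes)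
    (hur : ∀ q : Nat.Primes, q ∉ S → ρbar.IsUnramifiedAt (q : ℕ)) :
    ∀ q : Nat.Primes, q ∉ S → ∀ A : ValuationSubring Qbar, A.LiesOverPrime (q : ℕ) →
      ∀ g ∈ A.inertiaSubgroupIn ℚ, toMatRes ρbar b g = 1 :=
  fun q hq A hA g hg => toMatRes_eq_one_of_ρ_eq_one ρbar b (hur q hq A hA g hg)

theorem factors_cycloChar : GaloisFactorsThroughFiniteLevel (cycloChar p) := by
  obtain ⟨L, hL, h⟩ := cycloChar_finiteLevel (p := p)
  exact ⟨L, hL, fun σ hσ => h σ ((IntermediateField.mem_fixingSubgroup_iff L σ).2 hσ)⟩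

theorem cycloChar_inertia_of_mem (S : Finset Nat.Primes) (hpS : pPrime p ∈ S) :
    ∀ q : Nat.Primes, q ∉ S → ∀ A : ValuationSubring Qbar, A.LiesOverPrime (q : ℕ) →
      ∀ g ∈ A.inertiaSubgroupIn ℚ, cycloChar p g = 1 := by
  intro q hq A hA g hg
  have hne : (q : ℕ) ≠ p := by
    intro h
    apply hq
    have : q = pPrime p := Subtype.ext h
    rwa [this]
  exact cycloChar_inertia q.2 hne hA hg

variable (p)

/-- `ad⁰ρ̄` as an object of `Rep (ZMod p) GQ` (matrices in the basis `b`). -/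
abbrev adBar : Rep (ZMod p) Fermat.Agent.GC.C0.GQ := adRep p (toMatRes ρbar b) 1

/-- `ad⁰ρ̄(1)` as an object of `Rep (ZMod p) GQ` (matrices in the basis `b`). -/
abbrev adBarTw : Rep (ZMod p) Fermat.Agent.GC.C0.GQ := adRep p (toMatRes ρbar b) (cycloChar p)

/-- `ad⁰ρ̄` is discrete for `levelS S` as soon as `ρ̄` is unramified outside `S`. -/
theorem isDiscrete_adBar (S : Finset Nat.Primes)
    (hur : ∀ q : Nat.Primes, q ∉ S → ρbar.IsUnramifiedAt (q : ℕ)) :
    IsDiscrete (levelS S) (adBar p ρbar b) :=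
  isDiscrete_adRep p (toMatRes ρbar b) S 1 (factors_toMatRes ρbar b)
    ⟨⊥, inferInstance, fun _ _ => rfl⟩
    (toMatRes_inertia ρbar b S hur) (fun _ _ _ _ _ _ => rfl)

/-- `ad⁰ρ̄(1)` is discrete for `levelS S` as soon as `ρ̄` is unramified outside `S ∋ p`. -/
theorem isDiscrete_adBarTw (S : Finset Nat.Primes) (hpS : pPrime p ∈ S)
    (hur : ∀ q : Nat.Primes, q ∉ S → ρbar.IsUnramifiedAt (q : ℕ)) :
    IsDiscrete (levelS S) (adBarTw p ρbar b) :=
  isDiscrete_adRep p (toMatRes ρbar b) S (cycloChar p) (factors_toMatRes ρbar b)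
    factors_cycloChar (toMatRes_inertia ρbar b S hur) (cycloChar_inertia_of_mem S hpS)

/-- **`ad⁰ρ̄(1) ≅ (ad⁰ρ̄)^* = (ad⁰ρ̄).dualTwist (cycloChar p)`** -/
def adBarTwIso [Finite k] (hp2 : p ≠ 2) :
    adBarTw p ρbar b ≅ (adBar p ρbar b).dualTwist (cycloChar p) :=
  dualTwistIso p (toMatRes ρbar b) hp2 (cycloChar p)

end Residual

end Fermat.Agent.GP.Bridge.Ad0
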