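/-
GATE-P / S56, node S56-SEL-AD0REP part 4 = ARCH-ADBAR (helper94): **the archimedean terms of the
Greenberg–Wiles count for the concrete `N := adBar p ρbar b`**, in the exact shapes of
`GP/GW/Model.TateLe` / `GP/GW/ModelConj` (`finrank (ZMod p) (LinearMap.ker (N.ρ complexConjugation - 1))`).

* `finrank_sl2 : finrank k (sl2 k) = 3`, `finrank_restrictScalars` (tower law for a subspace),
  `finrank_sl2F`, `finrank_adRep : finrank (ZMod p) (adRep p R χ) = 3 * finrank (ZMod p) k`;
* `commSub C`, `anticommSub C` (traceless matrices (anti)commuting with `C`), `map_invSub`,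
  `map_antiSub` (transport of `GP/Loc/Arch.invSub/antiSub` along `toMatrixAlgEquiv b`);
* `mem_ker_adRep_sub_one_iff`, `map_ker_of_one`, `map_ker_of_neg_one`, `finrank_ker_of_one`,
  `finrank_ker_of_neg_one`;
* **`finrank_ker_conj_adBar : … = finrank (ZMod p) k`**, **`finrank_ker_conj_adBarTw : … = 2 * finrank (ZMod p) k`**,
  **`finrank_ker_conj_dualTwist_adBar`**, `finrank_adBar`, `finrank_adBarTw`.
NEW file, imports only.
-/
import Fermat.Agent.GP.Bridge.Ad0RepInst
import Fermat.Agent.GP.Loc.Arch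
import Fermat.Agent.GP.GW.FormulaAbs

set_option autoImplicit false
set_option linter.unusedSectionVars false

noncomputable section

namespace Fermat.Agent.GP.Bridge.Ad0

open Fermat.Agent.GC.Prof Fermat.Agent.GC.C0 Module ExtCitation Fermat.Agent.S53_helper35
  Fermat.Agent.GP.Loc.Arch

/-! ### dimensions -/

theorem finrank_sl2 (k : Type) [Field k] : finrank k (sl2 k) = 3 := by
  have h := LinearMap.finrank_range_add_finrank_ker (Matrix.traceLinearMap (Fin 2) k k)
  have hr : LinearMap.range (Matrix.traceLinearMap (Fin 2) k k) = ⊤ := by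
    rw [LinearMap.range_eq_top]
    intro a
    refine ⟨Matrix.of ![![a, 0], ![0, 0]], ?_⟩
    simp [Matrix.traceLinearMap_apply, Matrix.trace_fin_two]
  rw [hr, finrank_top, Module.finrank_self, Module.finrank_matrix] at h
  simp only [Fintype.card_fin, Module.finrank_self, mul_one] at h
  show finrank k (LinearMap.ker (Matrix.traceLinearMap (Fin 2) k k)) = 3
  omega

variable (p : ℕ) [Fact p.Prime] {k : Type} [Field k] [Algebra (ZMod p) k]

/-- tower law for a `k`-subspace viewed as an `𝔽_p`-subspace. -/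
theorem finrank_restrictScalars {E : Type*} [AddCommGroup E] [Module k E] [Module (ZMod p) E]
    [IsScalarTower (ZMod p) k E] (W : Submodule k E) :
    finrank (ZMod p) (W.restrictScalars (ZMod p)) = finrank (ZMod p) k * finrank k W := by
  rw [Module.finrank_mul_finrank (ZMod p) k W]
  exact LinearEquiv.finrank_eq
    ((Submodule.restrictScalarsEquiv (ZMod p) k E W).restrictScalars (ZMod p))

theorem finrank_sl2F : finrank (ZMod p) (sl2F p (k := k)) = finrank (ZMod p) k * 3 := by
  rw [sl2F, finrank_restrictScalars, finrank_sl2]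

variable (R : Fermat.Agent.GC.C0.GQ →* Matrix (Fin 2) (Fin 2) k)

theorem finrank_adRep (χ : Fermat.Agent.GC.C0.GQ →* (ZMod p)ˣ) :
    finrank (ZMod p) (adRep p R χ) = 3 * finrank (ZMod p) k := by
  rw [mul_comm]
  exact finrank_sl2F p

/-! ### matrices commuting / anticommuting with an involution -/

section Comm

variable {k : Type} [Field k]

/-- traceless matrices commuting with `C` -/
def commSub (C : Matrix (Fin 2) (Fin 2) k) : Submodule k (Matrix (Fin 2) (Fin 2) k) where
  carrier := {X | X.trace = 0 ∧ C * X = X * C}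
  add_mem' := by
    rintro A B ⟨hA, hA'⟩ ⟨hB, hB'⟩
    exact ⟨by rw [Matrix.trace_add, hA, hB, add_zero], by rw [mul_add, add_mul, hA', hB']⟩
  zero_mem' := ⟨Matrix.trace_zero _ _, by rw [mul_zero, zero_mul]⟩
  smul_mem' := by
    rintro c A ⟨hA, hA'⟩
    exact ⟨by rw [Matrix.trace_smul, hA, smul_zero], by rw [mul_smul_comm, smul_mul_assoc, hA']⟩

/-- traceless matrices anticommuting with `C` -/
def anticommSub (C : Matrix (Fin 2) (Fin 2) k) : Submodule k (Matrix (Fin 2) (Fin 2) k) where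
  carrier := {X | X.trace = 0 ∧ C * X = -(X * C)}
  add_mem' := by
    rintro A B ⟨hA, hA'⟩ ⟨hB, hB'⟩
    exact ⟨by rw [Matrix.trace_add, hA, hB, add_zero], by rw [mul_add, add_mul, hA', hB', neg_add]⟩
  zero_mem' := ⟨Matrix.trace_zero _ _, by rw [mul_zero, zero_mul, neg_zero]⟩
  smul_mem' := by
    rintro c A ⟨hA, hA'⟩
    exact ⟨by rw [Matrix.trace_smul, hA, smul_zero],
      by rw [mul_smul_comm, smul_mul_assoc, hA', smul_neg]⟩

theorem mem_commSub {C X : Matrix (Fin 2) (Fin 2) k} :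
    X ∈ commSub C ↔ X.trace = 0 ∧ C * X = X * C := Iff.rfl

theorem mem_anticommSub {C X : Matrix (Fin 2) (Fin 2) k} :
    X ∈ anticommSub C ↔ X.trace = 0 ∧ C * X = -(X * C) := Iff.rfl

variable {V : Type*} [AddCommGroup V] [Module k V]

theorem map_invSub (b : Basis (Fin 2) k V) (g : Module.End k V) :
    (invSub g).map ((LinearMap.toMatrixAlgEquiv b).toLinearEquiv : Module.End k V →ₗ[k] Matrix (Fin 2) (Fin 2) k)
      = commSub (LinearMap.toMatrix b b g) := by
  ext X
  rw [Submodule.mem_map, mem_commSub]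
  constructor
  · rintro ⟨A, ⟨hA, hA'⟩, rfl⟩
    refine ⟨?_, ?_⟩
    · rw [← hA, LinearMap.trace_eq_matrix_trace k b A]
      rfl
    · show LinearMap.toMatrix b b g * LinearMap.toMatrix b b A
        = LinearMap.toMatrix b b A * LinearMap.toMatrix b b g
      rw [← LinearMap.toMatrix_mul, ← LinearMap.toMatrix_mul, hA']
  · rintro ⟨hX, hX'⟩
    refine ⟨(LinearMap.toMatrixAlgEquiv b).symm X, ⟨?_, ?_⟩, AlgEquiv.apply_symm_apply _ X⟩
    · rw [LinearMap.trace_eq_matrix_trace k b]
      have : LinearMap.toMatrix b b ((LinearMap.toMatrixAlgEquiv b).symm X) = X :=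
        AlgEquiv.apply_symm_apply (LinearMap.toMatrixAlgEquiv b) X
      rw [this, hX]
    · apply (LinearMap.toMatrixAlgEquiv b).injective
      rw [map_mul, map_mul, AlgEquiv.apply_symm_apply]
      exact hX'

theorem map_antiSub (b : Basis (Fin 2) k V) (g : Module.End k V) :
    (antiSub g).map ((LinearMap.toMatrixAlgEquiv b).toLinearEquiv : Module.End k V →ₗ[k] Matrix (Fin 2) (Fin 2) k)
      = anticommSub (LinearMap.toMatrix b b g) := by
  ext X
  rw [Submodule.mem_map, mem_anticommSub]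
  constructor
  · rintro ⟨A, ⟨hA, hA'⟩, rfl⟩
    refine ⟨?_, ?_⟩
    · rw [← hA, LinearMap.trace_eq_matrix_trace k b A]
      rfl
    · show LinearMap.toMatrix b b g * LinearMap.toMatrix b b A
        = -(LinearMap.toMatrix b b A * LinearMap.toMatrix b b g)
      rw [← LinearMap.toMatrix_mul, ← LinearMap.toMatrix_mul, hA', map_neg]
  · rintro ⟨hX, hX'⟩
    refine ⟨(LinearMap.toMatrixAlgEquiv b).symm X, ⟨?_, ?_⟩, AlgEquiv.apply_symm_apply _ X⟩
    · rw [LinearMap.trace_eq_matrix_trace k b]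
      have : LinearMap.toMatrix b b ((LinearMap.toMatrixAlgEquiv b).symm X) = X :=
        AlgEquiv.apply_symm_apply (LinearMap.toMatrixAlgEquiv b) X
      rw [this, hX]
    · apply (LinearMap.toMatrixAlgEquiv b).injective
      rw [map_mul, map_neg, map_mul, AlgEquiv.apply_symm_apply]
      exact hX'

theorem finrank_commSub_toMatrix (b : Basis (Fin 2) k V) (g : Module.End k V) :
    finrank k (commSub (LinearMap.toMatrix b b g)) = finrank k (invSub g) := by
  rw [← map_invSub b g]
  exact LinearEquiv.finrank_map_eq _ _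

theorem finrank_anticommSub_toMatrix (b : Basis (Fin 2) k V) (g : Module.End k V) :
    finrank k (anticommSub (LinearMap.toMatrix b b g)) = finrank k (antiSub g) := by
  rw [← map_antiSub b g]
  exact LinearEquiv.finrank_map_eq _ _

end Comm

/-! ### the fixed space of one element -/

section Ker

variable (p : ℕ) [Fact p.Prime] {k : Type} [Field k] [Algebra (ZMod p) k]
  (R : Fermat.Agent.GC.C0.GQ →* Matrix (Fin 2) (Fin 2) k)

theorem mem_ker_adRep_sub_one_iff (χ : Fermat.Agent.GC.C0.GQ →* (ZMod p)ˣ)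
    (σ : Fermat.Agent.GC.C0.GQ) (X : sl2F p (k := k)) :
    (X : adRep p R χ) ∈ LinearMap.ker ((adRep p R χ).ρ σ - 1) ↔
      ((χ σ : (ZMod p)ˣ) : ZMod p) • (R σ * X.1 * R σ⁻¹) = X.1 := by
  rw [LinearMap.mem_ker, LinearMap.sub_apply, Module.End.one_apply, sub_eq_zero]
  constructor
  · intro h
    exact congrArg (fun x : sl2F p (k := k) => x.1) h
  · intro h
    exact Subtype.ext h

theorem conj_eq_iff_comm (σ : Fermat.Agent.GC.C0.GQ) (X : Matrix (Fin 2) (Fin 2) k) :
    R σ * X * R σ⁻¹ = X ↔ R σ * X = X * R σ := by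
  constructor
  · intro h
    have := congrArg (· * R σ) h
    simp only [Matrix.mul_assoc, R_inv_mul, Matrix.mul_one] at this
    exact this
  · intro h
    rw [h, Matrix.mul_assoc, R_mul_inv, Matrix.mul_one]

theorem neg_conj_eq_iff_anticomm (σ : Fermat.Agent.GC.C0.GQ) (X : Matrix (Fin 2) (Fin 2) k) :
    -(R σ * X * R σ⁻¹) = X ↔ R σ * X = -(X * R σ) := by
  constructor
  · intro h
    have := congrArg (· * R σ) h
    simp only [Matrix.neg_mul, Matrix.mul_assoc, R_inv_mul, Matrix.mul_one] at this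
    rw [← this, neg_neg]
  · intro h
    rw [h, Matrix.neg_mul, Matrix.mul_assoc, R_mul_inv, Matrix.mul_one, neg_neg]

/-- the fixed space of `σ` on `adRep R χ`, `χ σ = 1`, is the commutant of `R σ`. -/
theorem map_ker_of_one (χ : Fermat.Agent.GC.C0.GQ →* (ZMod p)ˣ) (σ : Fermat.Agent.GC.C0.GQ)
    (hχ : χ σ = 1) :
    (LinearMap.ker ((adRep p R χ).ρ σ - 1)).map (sl2F p (k := k)).subtype
      = (commSub (R σ)).restrictScalars (ZMod p) := by
  ext X
  rw [Submodule.mem_map, Submodule.restrictScalars_mem, mem_commSub]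
  constructor
  · rintro ⟨Y, hY, rfl⟩
    have h := (mem_ker_adRep_sub_one_iff p R χ σ Y).1 hY
    rw [hχ, Units.val_one, one_smul, conj_eq_iff_comm] at h
    exact ⟨(mem_sl2F p).1 Y.2, h⟩
  · rintro ⟨hX, hX'⟩
    refine ⟨⟨X, (mem_sl2F p).2 hX⟩, ?_, rfl⟩
    rw [mem_ker_adRep_sub_one_iff, hχ, Units.val_one, one_smul, conj_eq_iff_comm]
    exact hX'

/-- the fixed space of `σ` on `adRep R χ`, `χ σ = -1`, is the anti-commutant of `R σ`. -/
theorem map_ker_of_neg_one (χ : Fermat.Agent.GC.C0.GQ →* (ZMod p)ˣ) (σ : Fermat.Agent.GC.C0.GQ)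
    (hχ : ((χ σ : (ZMod p)ˣ) : ZMod p) = -1) :
    (LinearMap.ker ((adRep p R χ).ρ σ - 1)).map (sl2F p (k := k)).subtype
      = (anticommSub (R σ)).restrictScalars (ZMod p) := by
  ext X
  rw [Submodule.mem_map, Submodule.restrictScalars_mem, mem_anticommSub]
  constructor
  · rintro ⟨Y, hY, rfl⟩
    have h := (mem_ker_adRep_sub_one_iff p R χ σ Y).1 hY
    rw [hχ, neg_smul, one_smul, neg_conj_eq_iff_anticomm] at h
    exact ⟨(mem_sl2F p).1 Y.2, h⟩
  · rintro ⟨hX, hX'⟩
    refine ⟨⟨X, (mem_sl2F p).2 hX⟩, ?_, rfl⟩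
    rw [mem_ker_adRep_sub_one_iff, hχ, neg_smul, one_smul, neg_conj_eq_iff_anticomm]
    exact hX'

theorem finrank_ker_of_one (χ : Fermat.Agent.GC.C0.GQ →* (ZMod p)ˣ) (σ : Fermat.Agent.GC.C0.GQ)
    (hχ : χ σ = 1) :
    finrank (ZMod p) (LinearMap.ker ((adRep p R χ).ρ σ - 1))
      = finrank (ZMod p) k * finrank k (commSub (R σ)) := by
  rw [← finrank_restrictScalars, ← map_ker_of_one p R χ σ hχ]
  exact (Submodule.equivMapOfInjective _ (sl2F p (k := k)).injective_subtype _).finrank_eq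

theorem finrank_ker_of_neg_one (χ : Fermat.Agent.GC.C0.GQ →* (ZMod p)ˣ)
    (σ : Fermat.Agent.GC.C0.GQ) (hχ : ((χ σ : (ZMod p)ˣ) : ZMod p) = -1) :
    finrank (ZMod p) (LinearMap.ker ((adRep p R χ).ρ σ - 1))
      = finrank (ZMod p) k * finrank k (anticommSub (R σ)) := by
  rw [← finrank_restrictScalars, ← map_ker_of_neg_one p R χ σ hχ]
  exact (Submodule.equivMapOfInjective _ (sl2F p (k := k)).injective_subtype _).finrank_eq

end Ker

/-! ### complex conjugation on `ad⁰ρ̄` and `ad⁰ρ̄(1)` -/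

section Conj

variable (p : ℕ) [Fact p.Prime] {k : Type} [Field k] [Algebra (ZMod p) k]
  (ρbar : ResidualGaloisRep k) (b : Module.Basis (Fin 2) k ρbar.V)

/-- **`dim_{𝔽_p} (ad⁰ρ̄)^{c = 1} = [k : 𝔽_p]`** in the shape of `GP/GW/ModelConj`. -/
theorem finrank_ker_conj_adBar (hp2 : p ≠ 2)
    (hdet : (GaloisRepAdic.ofResidualGaloisRep ρbar).DetIsCyclotomic p) :
    finrank (ZMod p) (LinearMap.ker ((adBar p ρbar b).ρ complexConjugation - 1))
      = finrank (ZMod p) k := by
  rw [finrank_ker_of_one p (toMatRes ρbar b) 1 complexConjugation rfl, toMatRes_apply,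
    finrank_commSub_toMatrix, finrank_invariants_ad0 p hp2 ρbar hdet, mul_one]

/-- **`dim_{𝔽_p} (ad⁰ρ̄(1))^{c = 1} = 2 [k : 𝔽_p]`** in the shape of `GP/GW/Model.TateLe`. -/
theorem finrank_ker_conj_adBarTw (hp2 : p ≠ 2)
    (hdet : (GaloisRepAdic.ofResidualGaloisRep ρbar).DetIsCyclotomic p) :
    finrank (ZMod p) (LinearMap.ker ((adBarTw p ρbar b).ρ complexConjugation - 1))
      = 2 * finrank (ZMod p) k := by
  rw [finrank_ker_of_neg_one p (toMatRes ρbar b) (cycloChar p) complexConjugation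
      (Fermat.Agent.GP.GW.FormulaAbs.cycloChar_complexConjugation (p := p)), toMatRes_apply,
    finrank_anticommSub_toMatrix, finrank_antiinvariants_ad0 p hp2 ρbar hdet, mul_comm]

theorem finrank_adBar : finrank (ZMod p) (adBar p ρbar b) = 3 * finrank (ZMod p) k :=
  finrank_adRep p _ _

theorem finrank_adBarTw : finrank (ZMod p) (adBarTw p ρbar b) = 3 * finrank (ZMod p) k :=
  finrank_adRep p _ _

/-- **`dim_{𝔽_p} ((ad⁰ρ̄)^*)^{c = 1} = 2 [k : 𝔽_p]`** for `(ad⁰ρ̄)^* = (adBar).dualTwist (cycloChar p)`,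
literally the archimedean term of `GP/GW/Model.TateLe` / `selmer_le_of_dual_eq_bot`. -/
theorem finrank_ker_conj_dualTwist_adBar [Finite k] (hp2 : p ≠ 2)
    (hdet : (GaloisRepAdic.ofResidualGaloisRep ρbar).DetIsCyclotomic p) :
    finrank (ZMod p) (LinearMap.ker
        (((adBar p ρbar b).dualTwist (cycloChar p)).ρ complexConjugation - 1))
      = 2 * finrank (ZMod p) k := by
  have h := Fermat.Agent.GP.GW.FormulaAbs.finrank_dualTwist_conj_add (p := p) hp2 (adBar p ρbar b)
  rw [finrank_ker_conj_adBar p ρbar b hp2 hdet, finrank_adBar] at h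
  omega

end Conj

end Fermat.Agent.GP.Bridge.Ad0
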