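/-
GATE-P / S56, node S56-SEL-H0-ADBAR (helper94): **the global `H⁰` terms of the Greenberg–Wiles count
for the concrete `M := adBar p ρbar b`**, in the `Hlc (levelS S) _ 0` shapes of `GP/GW/Model`,
`ModelConj`, `ModelCard`; number theory from helper57's `GP/Loc/GlobH0` (Schur + frozen `hTW`).

* `apply_eq_pow_cycloExp`, **`algebraMap_cycloChar_eq_det`** : `det ρ̄ σ = ω(σ)` (frozen `cycloChar`,
  frozen `DetIsCyclotomic`);
* `invariants_adBar_eq_bot` (`habs`, `2 ≠ 0`), `invariants_adBarTw_eq_bot` (`habs`, `hdet`, `hTW`),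
  `invariants_dualTwist_eq_bot`, `invariants_dualTwist_adBar_eq_bot`;
* `subsingleton_Hlc_zero_of_invariants_eq_bot`, `finrank_Hlc_zero_of_invariants_eq_bot`,
  `natCard_Hlc_zero_of_invariants_eq_bot` (any level system, any discrete `M`);
* **`finrank_Hlc_zero_adBar`**, `natCard_Hlc_zero_adBar`, `finrank_Hlc_zero_adBarTw`,
  **`finrank_Hlc_zero_dualTwist_adBar`**, `natCard_Hlc_zero_dualTwist_adBar`,
  `natCard_ker_conj_adBar`.
NEW file, imports only.
-/
import Fermat.Agent.GP.Bridge.Ad0RepArch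
import Fermat.Agent.GP.Loc.GlobH0

set_option autoImplicit false
set_option linter.unusedSectionVars false
set_option linter.style.haveILetI false

noncomputable section

namespace Fermat.Agent.GP.Bridge.Ad0

open Fermat.Agent.GC.Prof Fermat.Agent.GC.C0 Module ExtCitation Fermat.Agent.S53_helper35

/-! ### the cyclotomic character and `det ρ̄` -/

section Cyclo

variable (p : ℕ) [Fact p.Prime]

/-- `σ` raises the `p`-th roots of unity to the power `cycloExp p σ`. -/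
theorem apply_eq_pow_cycloExp (σ : Fermat.Agent.GC.C0.GQ) (μ : AlgebraicClosure ℚ)
    (hμ : μ ^ p = 1) : σ μ = μ ^ cycloExp p σ := by
  haveI : NeZero p := ⟨(Fact.out : p.Prime).ne_zero⟩
  have hμ0 : μ ≠ 0 := by
    rintro rfl
    rw [zero_pow (NeZero.ne p)] at hμ
    exact zero_ne_one hμ
  let t : (AlgebraicClosure ℚ)ˣ := Units.mk0 μ hμ0
  have ht : t ∈ rootsOfUnity p (AlgebraicClosure ℚ) := by
    rw [mem_rootsOfUnity]
    apply Units.ext
    rw [Units.val_pow_eq_pow_val, Units.val_one]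
    exact hμ
  exact modularCyclotomicCharacter.spec (AlgebraicClosure ℚ) (card_rootsOfUnity_eq_self p)
    (σ : AlgebraicClosure ℚ ≃+* AlgebraicClosure ℚ) ht

variable {k : Type} [Field k] [Algebra (ZMod p) k] (ρbar : ResidualGaloisRep k)

/-- **`det ρ̄ = ω`**: the determinant is the mod `p` cyclotomic character (frozen `cycloChar`). -/
theorem algebraMap_cycloChar_eq_det
    (hdet : (GaloisRepAdic.ofResidualGaloisRep ρbar).DetIsCyclotomic p)
    (σ : Fermat.Agent.GC.C0.GQ) :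
    algebraMap (ZMod p) k ((cycloChar p σ : (ZMod p)ˣ) : ZMod p) = LinearMap.det (ρbar.ρ σ) := by
  rw [coe_cycloChar, map_natCast]
  exact (Fermat.Agent.GP.Loc.GlobH0.det_eq_natCast ρbar p hdet σ (cycloExp p σ)
    (apply_eq_pow_cycloExp p σ)).symm

end Cyclo

/-! ### `H⁰(G_ℚ, ad⁰ρ̄) = 0`, `H⁰(G_ℚ, ad⁰ρ̄(1)) = 0` -/

section Inv

variable (p : ℕ) [Fact p.Prime] {k : Type} [Field k] [Algebra (ZMod p) k]
  (ρbar : ResidualGaloisRep k) (b : Module.Basis (Fin 2) k ρbar.V)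

theorem symm_toMatRes (σ : Fermat.Agent.GC.C0.GQ) :
    (LinearMap.toMatrixAlgEquiv b).symm (toMatRes ρbar b σ) = ρbar.ρ σ :=
  (LinearMap.toMatrixAlgEquiv b).symm_apply_apply (ρbar.ρ σ)

theorem trace_symm (X : Matrix (Fin 2) (Fin 2) k) :
    LinearMap.trace k ρbar.V ((LinearMap.toMatrixAlgEquiv b).symm X) = X.trace := by
  rw [LinearMap.trace_eq_matrix_trace k b]
  have : LinearMap.toMatrix b b ((LinearMap.toMatrixAlgEquiv b).symm X) = X :=
    (LinearMap.toMatrixAlgEquiv b).apply_symm_apply X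
  rw [this]

/-- **`(ad⁰ρ̄)^{G_ℚ} = 0`** for the concrete model. -/
theorem invariants_adBar_eq_bot (habs : ρbar.IsAbsolutelyIrreducible) (h2 : (2 : k) ≠ 0) :
    (adBar p ρbar b).ρ.invariants = ⊥ := by
  rw [eq_bot_iff]
  intro X hX
  rw [Submodule.mem_bot]
  have hX' := (mem_invariants_adRep_iff p (toMatRes ρbar b) 1 X).1 hX
  have h0 : (LinearMap.toMatrixAlgEquiv b).symm (X : sl2F p (k := k)).1 = 0 := by
    apply Fermat.Agent.GP.Loc.GlobH0.eq_zero_of_commute_of_trace_eq_zero ρbar habs h2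
    · rw [trace_symm]
      exact (mem_sl2F p).1 (X : sl2F p (k := k)).2
    · intro σ
      have h := hX' σ
      rw [MonoidHom.one_apply, Units.val_one, one_smul, conj_eq_iff_comm] at h
      rw [← symm_toMatRes ρbar b σ, ← map_mul, ← map_mul, h]
  have h1 : (X : sl2F p (k := k)).1 = 0 := by
    have := congrArg (LinearMap.toMatrixAlgEquiv b) h0
    rwa [AlgEquiv.apply_symm_apply, map_zero] at this
  exact Subtype.ext h1

/-- **`(ad⁰ρ̄(1))^{G_ℚ} = 0`** for the concrete model, from the frozen hypotheses of S56. -/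
theorem invariants_adBarTw_eq_bot (hp2 : p ≠ 2) (habs : ρbar.IsAbsolutelyIrreducible)
    (hdet : (GaloisRepAdic.ofResidualGaloisRep ρbar).DetIsCyclotomic p)
    (hTW : ∀ (K : Type) [Field K] [Algebra k K]
      (G : Subgroup (AlgebraicClosure ℚ ≃ₐ[ℚ] AlgebraicClosure ℚ)), G.index = 2 →
      ∀ V : Submodule K (ρbar.baseChange K).V,
        (∀ σ ∈ G, ∀ x ∈ V, (ρbar.baseChange K).ρ σ x ∈ V) → V = ⊥ ∨ V = ⊤) :
    (adBarTw p ρbar b).ρ.invariants = ⊥ := by
  rw [eq_bot_iff]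
  intro X hX
  rw [Submodule.mem_bot]
  have hX' := (mem_invariants_adRep_iff p (toMatRes ρbar b) (cycloChar p) X).1 hX
  have h0 : (LinearMap.toMatrixAlgEquiv b).symm (X : sl2F p (k := k)).1 = 0 := by
    apply Fermat.Agent.GP.Loc.GlobH0.eq_zero_of_twisted_commute_char ρbar p hp2 habs hdet hTW
      (fun σ => algebraMap (ZMod p) k ((cycloChar p σ : (ZMod p)ˣ) : ZMod p))
      (fun σ => algebraMap_cycloChar_eq_det p ρbar hdet σ)
    intro σ
    have h := hX' σ
    -- `X * C = ω • (C * X)`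
    have h' : (X : sl2F p (k := k)).1 * toMatRes ρbar b σ
        = algebraMap (ZMod p) k ((cycloChar p σ : (ZMod p)ˣ) : ZMod p)
          • (toMatRes ρbar b σ * (X : sl2F p (k := k)).1) := by
      have := congrArg (· * toMatRes ρbar b σ) h
      simp only [Matrix.smul_mul, Matrix.mul_assoc, R_inv_mul, Matrix.mul_one] at this
      rw [← this, algebraMap_smul]
    rw [← symm_toMatRes ρbar b σ, ← map_mul, ← map_mul, h', map_smul]
  have h1 : (X : sl2F p (k := k)).1 = 0 := by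
    have := congrArg (LinearMap.toMatrixAlgEquiv b) h0
    rwa [AlgEquiv.apply_symm_apply, map_zero] at this
  exact Subtype.ext h1

end Inv

/-! ### the Tate dual and the `Hlc` forms -/

section Dual

variable (p : ℕ) [Fact p.Prime] {k : Type} [Field k] [Algebra (ZMod p) k]
  (R : Fermat.Agent.GC.C0.GQ →* Matrix (Fin 2) (Fin 2) k)

/-- invariants of `(ad⁰)^*(χ)` vanish as soon as those of `ad⁰(χ)` do (trace pairing). -/
theorem invariants_dualTwist_eq_bot [Finite k] (hp2 : p ≠ 2)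
    (χ : Fermat.Agent.GC.C0.GQ →* (ZMod p)ˣ) (h : (adRep p R χ).ρ.invariants = ⊥) :
    ((adRep p R 1).dualTwist χ).ρ.invariants = ⊥ := by
  rw [eq_bot_iff]
  intro f hf
  rw [Submodule.mem_bot]
  rw [Representation.mem_invariants] at hf
  set e := dualTwistEquiv p R hp2 χ with he
  -- `f = e Y`
  obtain ⟨Y, hY⟩ : ∃ Y : sl2F p (k := k), trEquiv p hp2 Y = f := (trEquiv p hp2).surjective f
  have hYinv : (Y : adRep p R χ) ∈ (adRep p R χ).ρ.invariants := by
    rw [Representation.mem_invariants]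
    intro g
    apply (trEquiv p hp2).injective
    have hc := LinearMap.congr_fun (e.isIntertwining' g) Y
    have hc' : trEquiv p hp2 (adRho p R χ g Y)
        = ((adRho p R 1).dual.twist χ) g (trEquiv p hp2 Y) := hc
    show trEquiv p hp2 (adRho p R χ g Y) = trEquiv p hp2 Y
    rw [hc', hY]
    exact hf g
  rw [h, Submodule.mem_bot] at hYinv
  rw [← hY]
  have : Y = 0 := hYinv
  rw [this, map_zero]

end Dual

section HlcForms

variable {G : Type} [Group G] (𝒰 : LevelSystem G) {F : Type} [Field F] (M : Rep F G)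
  [IsDiscrete 𝒰 M]

theorem subsingleton_Hlc_zero_of_invariants_eq_bot (h : M.ρ.invariants = ⊥) :
    Subsingleton (Hlc 𝒰 M 0) := by
  have : Subsingleton M.ρ.invariants := by
    rw [h]
    infer_instance
  exact (Hlc0Equiv 𝒰 M).toEquiv.subsingleton

theorem finrank_Hlc_zero_of_invariants_eq_bot (h : M.ρ.invariants = ⊥) :
    finrank F (Hlc 𝒰 M 0) = 0 := by
  haveI := subsingleton_Hlc_zero_of_invariants_eq_bot 𝒰 M h
  exact Module.finrank_zero_of_subsingleton

theorem natCard_Hlc_zero_of_invariants_eq_bot (h : M.ρ.invariants = ⊥) :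
    Nat.card (Hlc 𝒰 M 0) = 1 := by
  haveI := subsingleton_Hlc_zero_of_invariants_eq_bot 𝒰 M h
  exact Nat.card_unique

end HlcForms

/-! ### the three `H⁰` terms of the Greenberg–Wiles count for `M = adBar` -/

section Final

variable (p : ℕ) [Fact p.Prime] {k : Type} [Field k] [Algebra (ZMod p) k]
  (ρbar : ResidualGaloisRep k) (b : Module.Basis (Fin 2) k ρbar.V) (S : Finset Nat.Primes)

/-- **`h⁰(G_{ℚ,S}, ad⁰ρ̄) = 0`** (`hh0` of `GP/GW/ModelConj`, `ModelCard`). -/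
theorem finrank_Hlc_zero_adBar [IsDiscrete (levelS S) (adBar p ρbar b)]
    (habs : ρbar.IsAbsolutelyIrreducible) (h2 : (2 : k) ≠ 0) :
    finrank (ZMod p) (Hlc (levelS S) (adBar p ρbar b) 0) = 0 :=
  finrank_Hlc_zero_of_invariants_eq_bot _ _ (invariants_adBar_eq_bot p ρbar b habs h2)

theorem natCard_Hlc_zero_adBar [IsDiscrete (levelS S) (adBar p ρbar b)]
    (habs : ρbar.IsAbsolutelyIrreducible) (h2 : (2 : k) ≠ 0) :
    Nat.card (Hlc (levelS S) (adBar p ρbar b) 0) = 1 :=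
  natCard_Hlc_zero_of_invariants_eq_bot _ _ (invariants_adBar_eq_bot p ρbar b habs h2)

/-- **`h⁰(G_{ℚ,S}, ad⁰ρ̄(1)) = 0`**. -/
theorem finrank_Hlc_zero_adBarTw [IsDiscrete (levelS S) (adBarTw p ρbar b)] (hp2 : p ≠ 2)
    (habs : ρbar.IsAbsolutelyIrreducible)
    (hdet : (GaloisRepAdic.ofResidualGaloisRep ρbar).DetIsCyclotomic p)
    (hTW : ∀ (K : Type) [Field K] [Algebra k K]
      (G : Subgroup (AlgebraicClosure ℚ ≃ₐ[ℚ] AlgebraicClosure ℚ)), G.index = 2 →
      ∀ V : Submodule K (ρbar.baseChange K).V,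
        (∀ σ ∈ G, ∀ x ∈ V, (ρbar.baseChange K).ρ σ x ∈ V) → V = ⊥ ∨ V = ⊤) :
    finrank (ZMod p) (Hlc (levelS S) (adBarTw p ρbar b) 0) = 0 :=
  finrank_Hlc_zero_of_invariants_eq_bot _ _
    (invariants_adBarTw_eq_bot p ρbar b hp2 habs hdet hTW)

/-- **`((ad⁰ρ̄)^*)^{G_ℚ} = 0`** for `(ad⁰ρ̄)^* = (adBar).dualTwist (cycloChar p)`. -/
theorem invariants_dualTwist_adBar_eq_bot [Finite k] (hp2 : p ≠ 2)
    (habs : ρbar.IsAbsolutelyIrreducible)
    (hdet : (GaloisRepAdic.ofResidualGaloisRep ρbar).DetIsCyclotomic p)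
    (hTW : ∀ (K : Type) [Field K] [Algebra k K]
      (G : Subgroup (AlgebraicClosure ℚ ≃ₐ[ℚ] AlgebraicClosure ℚ)), G.index = 2 →
      ∀ V : Submodule K (ρbar.baseChange K).V,
        (∀ σ ∈ G, ∀ x ∈ V, (ρbar.baseChange K).ρ σ x ∈ V) → V = ⊥ ∨ V = ⊤) :
    ((adBar p ρbar b).dualTwist (cycloChar p)).ρ.invariants = ⊥ :=
  invariants_dualTwist_eq_bot p (toMatRes ρbar b) hp2 (cycloChar p)
    (invariants_adBarTw_eq_bot p ρbar b hp2 habs hdet hTW)

/-- **`h⁰(G_{ℚ,S}, (ad⁰ρ̄)^*) = 0`**, literally the `h⁰(M*)` term of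
`GP/GW/Model.selmer_le_of_dual_eq_bot`. -/
theorem finrank_Hlc_zero_dualTwist_adBar [Finite k]
    [IsDiscrete (levelS S) ((adBar p ρbar b).dualTwist (cycloChar p))] (hp2 : p ≠ 2)
    (habs : ρbar.IsAbsolutelyIrreducible)
    (hdet : (GaloisRepAdic.ofResidualGaloisRep ρbar).DetIsCyclotomic p)
    (hTW : ∀ (K : Type) [Field K] [Algebra k K]
      (G : Subgroup (AlgebraicClosure ℚ ≃ₐ[ℚ] AlgebraicClosure ℚ)), G.index = 2 →
      ∀ V : Submodule K (ρbar.baseChange K).V,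
        (∀ σ ∈ G, ∀ x ∈ V, (ρbar.baseChange K).ρ σ x ∈ V) → V = ⊥ ∨ V = ⊤) :
    finrank (ZMod p) (Hlc (levelS S) ((adBar p ρbar b).dualTwist (cycloChar p)) 0) = 0 :=
  finrank_Hlc_zero_of_invariants_eq_bot _ _
    (invariants_dualTwist_adBar_eq_bot p ρbar b hp2 habs hdet hTW)

theorem natCard_Hlc_zero_dualTwist_adBar [Finite k]
    [IsDiscrete (levelS S) ((adBar p ρbar b).dualTwist (cycloChar p))] (hp2 : p ≠ 2)
    (habs : ρbar.IsAbsolutelyIrreducible)
    (hdet : (GaloisRepAdic.ofResidualGaloisRep ρbar).DetIsCyclotomic p)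
    (hTW : ∀ (K : Type) [Field K] [Algebra k K]
      (G : Subgroup (AlgebraicClosure ℚ ≃ₐ[ℚ] AlgebraicClosure ℚ)), G.index = 2 →
      ∀ V : Submodule K (ρbar.baseChange K).V,
        (∀ σ ∈ G, ∀ x ∈ V, (ρbar.baseChange K).ρ σ x ∈ V) → V = ⊥ ∨ V = ⊤) :
    Nat.card (Hlc (levelS S) ((adBar p ρbar b).dualTwist (cycloChar p)) 0) = 1 :=
  natCard_Hlc_zero_of_invariants_eq_bot _ _
    (invariants_dualTwist_adBar_eq_bot p ρbar b hp2 habs hdet hTW)

/-- `#(ad⁰ρ̄)^{c = 1} = |k|`, the archimedean factor of `GP/GW/ModelCard`. -/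
theorem natCard_ker_conj_adBar [Finite k] (hp2 : p ≠ 2)
    (hdet : (GaloisRepAdic.ofResidualGaloisRep ρbar).DetIsCyclotomic p) :
    Nat.card (LinearMap.ker ((adBar p ρbar b).ρ complexConjugation - 1)) = Nat.card k := by
  rw [Module.natCard_eq_pow_finrank (K := ZMod p), finrank_ker_conj_adBar p ρbar b hp2 hdet,
    ← Module.natCard_eq_pow_finrank (K := ZMod p) (V := k)]

end Final

end Fermat.Agent.GP.Bridge.Ad0
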