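/-
GATE-P / S56, node S56-SEL-AD0REP part 3 (helper94): **plug of the concrete `ad⁰ρ̄` into
`GP/Tan/SelmerGlobal.selmerBound_of_local`** + the `𝔽_p`-algebra structure of the residue field.

* `natCast_residueField_eq_zero`, `charP_residueField`, `algebraResidueField p hp𝒪`
  (`letI := algebraResidueField p hp𝒪`), `two_ne_zero_residueField`;
* `selmerBound_of_local_adBar` : helper11's `selmerBound_of_local` with `N := adBar p ρbar b`,
  `emb := Subtype.val`; what is left are exactly `Sel`, `hcard`, `hglob`, `hloc`.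
NEW file, imports only.
-/
import Fermat.Agent.GP.Bridge.Ad0RepInst
import Fermat.Agent.GP.Tan.SelmerGlobal

set_option autoImplicit false
set_option linter.unusedSectionVars false
set_option linter.style.haveILetI false

noncomputable section

namespace Fermat.Agent.GP.Bridge.Ad0

open IsLocalRing Fermat.Agent.GC.Prof Fermat.Agent.GC.C0 Module ExtCitation
  Fermat.Agent.S53_helper35 Fermat.Agent.GP.Tan.Cocycle Fermat.Agent.GP.Tan.TanTop
  Fermat.Agent.GP.Tan.Selmer Fermat.Agent.GP.Tan.SelmerGlobal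

section Char

variable {𝒪 : Type} [CommRing 𝒪] [IsLocalRing 𝒪] (p : ℕ) [Fact p.Prime]

theorem natCast_residueField_eq_zero (hp𝒪 : (p : 𝒪) ∈ maximalIdeal 𝒪) :
    ((p : ℕ) : ResidueField 𝒪) = 0 := by
  have h : residue 𝒪 (p : 𝒪) = 0 := (residue_eq_zero_iff _).2 hp𝒪
  rwa [map_natCast] at h

theorem charP_residueField (hp𝒪 : (p : 𝒪) ∈ maximalIdeal 𝒪) : CharP (ResidueField 𝒪) p :=
  (CharP.charP_iff_prime_eq_zero (Fact.out : p.Prime)).2 (natCast_residueField_eq_zero p hp𝒪)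

/-- the `𝔽_p`-algebra structure of the residue field of `𝒪` (residue characteristic `p`). Use as
`letI := algebraResidueField p hp𝒪`. -/
abbrev algebraResidueField (hp𝒪 : (p : 𝒪) ∈ maximalIdeal 𝒪) :
    Algebra (ZMod p) (ResidueField 𝒪) :=
  @ZMod.algebra (ResidueField 𝒪) _ p (charP_residueField p hp𝒪)

theorem two_ne_zero_residueField (hp𝒪 : (p : 𝒪) ∈ maximalIdeal 𝒪) (hp2 : p ≠ 2) :
    (2 : ResidueField 𝒪) ≠ 0 := by
  haveI := charP_residueField p hp𝒪
  intro h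
  have h' : ((2 : ℕ) : ResidueField 𝒪) = 0 := by exact_mod_cast h
  rw [CharP.cast_eq_zero_iff (ResidueField 𝒪) p] at h'
  exact hp2 ((Nat.prime_dvd_prime_iff_eq (Fact.out : p.Prime) Nat.prime_two).1 h')

end Char

section Plug

variable {𝒪 : Type} [CommRing 𝒪] [IsLocalRing 𝒪] (p : ℕ) [Fact p.Prime]
  [Algebra (ZMod p) (ResidueField 𝒪)]
  (ρbar : ResidualGaloisRep (ResidueField 𝒪))
  (b : Module.Basis (Fin 2) (ResidueField 𝒪) ρbar.V)
  (𝒟 : ∀ ⦃A : Type⦄ [CommRing A] [IsLocalRing A] [Algebra 𝒪 A], GaloisRepAdic A → Prop)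
  (S : Finset Nat.Primes) [IsDiscrete (levelS S) (adBar p ρbar b)]

/-- **`GP/Tan/SelmerGlobal.selmerBound_of_local` at the concrete model `N := adBar p ρbar b`**
(`emb`, `hinj`, `hsurj`, `hact` discharged). -/
theorem selmerBound_of_local_adBar (h2 : (2 : ResidueField 𝒪) ≠ 0) (r : ℕ)
    (Sel : Set (Hlc (levelS S) (adBar p ρbar b) 1)) (hfin : Sel.Finite)
    (h0 : (0 : Hlc (levelS S) (adBar p ρbar b) 1) ∈ Sel)
    (hcard : Sel.ncard ≤ Nat.card (ResidueField 𝒪) ^ r)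
    (hglob : ∀ (t : S53_helper35.GQ →* Matrix (Fin 2) (Fin 2) (DualNumber (ResidueField 𝒪)))
      (ht : MatCont t), (∃ ρ, 𝒟 ρ ∧ ρ.IsEquiv (ofMat t ht)) →
        (∀ σ, Matrix.trace (tanCocycle t σ) = 0) ∧
          ∀ q : Nat.Primes, q ∉ S → (ofMat t ht).IsUnramifiedAt (q : ℕ))
    (hloc : ∀ (t : S53_helper35.GQ →* Matrix (Fin 2) (Fin 2) (DualNumber (ResidueField 𝒪)))
      (ht : MatCont t), rfst t = toMatRes ρbar b → (∃ ρ, 𝒟 ρ ∧ ρ.IsEquiv (ofMat t ht)) →
        ∀ z : lcCocycles₁ (levelS S) (adBar p ρbar b),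
          (∀ σ, ((z : S53_helper35.GQ → adBar p ρbar b) σ : sl2F p (k := ResidueField 𝒪)).1
            = tanCocycle t σ) →
            Hlc1π (levelS S) (adBar p ρbar b) z ∈ Sel) :
    SelmerBound 𝒪 ρbar b 𝒟 r :=
  selmerBound_of_local ρbar b 𝒟 (adBar p ρbar b) S (emb p (toMatRes ρbar b) 1)
    (emb_injective p _ 1) (emb_surjective p _ 1) (emb_ρ_one p _) h2 r Sel hfin h0 hcard hglob hloc

end Plug

end Fermat.Agent.GP.Bridge.Ad0
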