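/-
GATE-P / S56, leaf S56-GLOB-H0-HLC (helper57): **the global `H⁰` terms in the pinned model**.

Adapter from `GP/Loc/GlobH0` (`End(V)` form) to helper94's coefficient objects
`adBar p ρbar b = adRep p (toMatRes ρbar b) 1` and `adBarTw p ρbar b = adRep p (toMatRes ρbar b) (cycloChar p)`
(`GP/Bridge/Ad0RepInst`) and to `Hlc (levelS S) · 0` (`GC/Prof/Low.Hlc0Equiv`):

* `cycloChar_spec'`, `algebraMap_cycloChar_eq_det` : `(cycloChar p σ : k) = det ρbar(σ)` from the frozen `hdet`;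
* `invariants_adBar_eq_bot` (`habs`, `2 ≠ 0`), `invariants_adBarTw_eq_bot` (`habs`, `hdet`, `hTW`, `p` odd);
* `invariants_dualTwist_adBar_eq_bot` : the same for `N* = (adBar).dualTwist (cycloChar p)`;
* `finrank_hlc_zero_adBar`, `finrank_hlc_zero_adBarTw`, `finrank_hlc_zero_dualTwist_adBar` : `finrank (Hlc 𝒰 · 0) = 0`
  for ANY level system `𝒰` on `G_ℚ` (in particular `levelS S`): the `hH0` binder of `GP/Core/CoreSel`.
-/
import Fermat.Agent.GP.Bridge.Ad0RepInst
import Fermat.Agent.GP.Loc.GlobH0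

set_option autoImplicit false

noncomputable section

namespace Fermat.Agent.GP.Bridge.GlobH0Hlc

open Fermat.Agent.GC.Prof Fermat.Agent.GC.C0 Module ExtCitation Fermat.Agent.S53_helper35
open Fermat.Agent.GP.Bridge.Ad0 Fermat.Agent.GP.Loc.GlobH0

variable (p : ℕ) [Fact p.Prime] {k : Type} [Field k] [Algebra (ZMod p) k]
variable (ρbar : ResidualGaloisRep k) (b : Module.Basis (Fin 2) k ρbar.V)

/-- the defining property of the frozen `cycloChar p`. -/
theorem cycloChar_spec' (σ : Fermat.Agent.GC.C0.GQ) (ζ : AlgebraicClosure ℚ) (hζ : ζ ^ p = 1) :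
    σ ζ = ζ ^ ((cycloChar p σ : (ZMod p)ˣ) : ZMod p).val := by
  have : NeZero p := ⟨(Fact.out : p.Prime).ne_zero⟩
  have hζ0 : ζ ≠ 0 := by
    rintro rfl
    rw [zero_pow (NeZero.ne p)] at hζ
    exact zero_ne_one hζ
  have hmem : Units.mk0 ζ hζ0 ∈ rootsOfUnity p (AlgebraicClosure ℚ) := by
    rw [mem_rootsOfUnity]
    ext
    simpa using hζ
  have h := modularCyclotomicCharacter.spec (AlgebraicClosure ℚ) (card_rootsOfUnity_eq_self p)
    (σ : AlgebraicClosure ℚ ≃+* AlgebraicClosure ℚ) hmem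
  have hdef : cycloChar p σ = modularCyclotomicCharacter (AlgebraicClosure ℚ)
      (card_rootsOfUnity_eq_self p) (σ : AlgebraicClosure ℚ ≃+* AlgebraicClosure ℚ) := rfl
  rw [hdef]
  simpa using h

/-- `cycloChar p = det ρbar` (in `k`), from the frozen `DetIsCyclotomic`. -/
theorem algebraMap_cycloChar_eq_det
    (hdet : (GaloisRepAdic.ofResidualGaloisRep ρbar).DetIsCyclotomic p) (σ : Fermat.Agent.GC.C0.GQ) :
    algebraMap (ZMod p) k ((cycloChar p σ : (ZMod p)ˣ) : ZMod p) = LinearMap.det (ρbar.ρ σ) := by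
  have : NeZero p := ⟨(Fact.out : p.Prime).ne_zero⟩
  have h := det_eq_natCast ρbar p hdet σ ((cycloChar p σ : (ZMod p)ˣ) : ZMod p).val
    (fun μ hμ => cycloChar_spec' p σ μ hμ)
  rw [h, ← map_natCast (algebraMap (ZMod p) k), ZMod.natCast_zmod_val]

/-! ### invariants -/

section Inv

variable {p}

/-- the endomorphism of `ρbar.V` with matrix `X` in the basis `b`. -/
theorem toLin_comm_of_comm (X : Matrix (Fin 2) (Fin 2) k) (σ : Fermat.Agent.GC.C0.GQ) (c : k)
    (h : c • (toMatRes ρbar b σ * X) = X * toMatRes ρbar b σ) :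
    Matrix.toLin b b X * ρbar.ρ σ = c • (ρbar.ρ σ * Matrix.toLin b b X) := by
  apply (LinearMap.toMatrix b b).injective
  rw [map_smul, LinearMap.toMatrix_mul, LinearMap.toMatrix_mul, LinearMap.toMatrix_toLin,
    ← toMatRes_apply, h]

theorem trace_toLin (X : Matrix (Fin 2) (Fin 2) k) :
    LinearMap.trace k ρbar.V (Matrix.toLin b b X) = X.trace := by
  rw [LinearMap.trace_eq_matrix_trace k b, LinearMap.toMatrix_toLin]

variable (p)

/-- **`H⁰(G_ℚ, ad⁰ρ̄) = 0`** in helper94's model. -/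
theorem invariants_adBar_eq_bot (habs : ρbar.IsAbsolutelyIrreducible) (h2 : (2 : k) ≠ 0) :
    (adBar p ρbar b).ρ.invariants = ⊥ := by
  rw [eq_bot_iff]
  intro x hx
  rw [Submodule.mem_bot]
  have h := (mem_invariants_adRep_iff p (toMatRes ρbar b) 1 x).1 hx
  have hX0 : Matrix.toLin b b (x : sl2F p (k := k)).1 = 0 := by
    apply eq_zero_of_commute_of_trace_eq_zero ρbar habs h2
    · rw [trace_toLin]; exact (mem_sl2F p).1 (x : sl2F p (k := k)).2
    · intro σ
      have h1 := toLin_comm_of_comm ρbar b (x : sl2F p (k := k)).1 σ 1 (by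
        rw [one_smul]
        have hσ := h σ
        rw [MonoidHom.one_apply, Units.val_one, one_smul] at hσ
        calc toMatRes ρbar b σ * (x : sl2F p (k := k)).1
            = toMatRes ρbar b σ * (x : sl2F p (k := k)).1 *
                (toMatRes ρbar b σ⁻¹ * toMatRes ρbar b σ) := by
              rw [R_inv_mul, Matrix.mul_one]
          _ = (toMatRes ρbar b σ * (x : sl2F p (k := k)).1 * toMatRes ρbar b σ⁻¹) *
                toMatRes ρbar b σ := by simp only [Matrix.mul_assoc]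
          _ = (x : sl2F p (k := k)).1 * toMatRes ρbar b σ := by rw [hσ])
      rw [one_smul] at h1
      exact h1.symm
  have hX : (x : sl2F p (k := k)).1 = 0 := by
    have := congrArg (LinearMap.toMatrix b b) hX0
    rwa [LinearMap.toMatrix_toLin, map_zero] at this
  exact Subtype.ext hX

/-- **`H⁰(G_ℚ, ad⁰ρ̄(1)) = 0`** in helper94's model, from the frozen hypotheses of S56. -/
theorem invariants_adBarTw_eq_bot (hp2 : p ≠ 2) (habs : ρbar.IsAbsolutelyIrreducible)
    (hdet : (GaloisRepAdic.ofResidualGaloisRep ρbar).DetIsCyclotomic p)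
    (hTW : ∀ (K : Type) [Field K] [Algebra k K]
      (G : Subgroup (AlgebraicClosure ℚ ≃ₐ[ℚ] AlgebraicClosure ℚ)), G.index = 2 →
      ∀ V : Submodule K (ρbar.baseChange K).V,
        (∀ σ ∈ G, ∀ x ∈ V, (ρbar.baseChange K).ρ σ x ∈ V) → V = ⊥ ∨ V = ⊤) :
    (adBarTw p ρbar b).ρ.invariants = ⊥ := by
  rw [eq_bot_iff]
  intro x hx
  rw [Submodule.mem_bot]
  have h := (mem_invariants_adRep_iff p (toMatRes ρbar b) (cycloChar p) x).1 hx
  have hX0 : Matrix.toLin b b (x : sl2F p (k := k)).1 = 0 := by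
    apply eq_zero_of_twisted_commute ρbar p hp2 habs hdet hTW
    intro σ
    refine toLin_comm_of_comm ρbar b (x : sl2F p (k := k)).1 σ _ ?_
    have hσ := h σ
    rw [← algebraMap_smul k, algebraMap_cycloChar_eq_det p ρbar hdet σ] at hσ
    calc LinearMap.det (ρbar.ρ σ) • (toMatRes ρbar b σ * (x : sl2F p (k := k)).1)
        = LinearMap.det (ρbar.ρ σ) • (toMatRes ρbar b σ * (x : sl2F p (k := k)).1 *
            (toMatRes ρbar b σ⁻¹ * toMatRes ρbar b σ)) := by
          rw [R_inv_mul, Matrix.mul_one]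
      _ = (LinearMap.det (ρbar.ρ σ) •
            (toMatRes ρbar b σ * (x : sl2F p (k := k)).1 * toMatRes ρbar b σ⁻¹)) *
            toMatRes ρbar b σ := by
          rw [Matrix.smul_mul]; simp only [Matrix.mul_assoc]
      _ = (x : sl2F p (k := k)).1 * toMatRes ρbar b σ := by rw [hσ]
  have hX : (x : sl2F p (k := k)).1 = 0 := by
    have := congrArg (LinearMap.toMatrix b b) hX0
    rwa [LinearMap.toMatrix_toLin, map_zero] at this
  exact Subtype.ext hX

/-- invariants are transported along an isomorphism of representations. -/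
theorem invariants_eq_bot_of_iso {G : Type} [Group G] {A B : Rep (ZMod p) G} (e : A ≅ B)
    (hA : A.ρ.invariants = ⊥) : B.ρ.invariants = ⊥ := by
  rw [eq_bot_iff]
  intro y hy
  rw [Submodule.mem_bot]
  have h1 : e.inv.hom y ∈ A.ρ.invariants := by
    rw [Representation.mem_invariants]
    intro g
    rw [← Rep.hom_comm_apply, (Representation.mem_invariants _ y).1 hy g]
  rw [hA, Submodule.mem_bot] at h1
  have h2 : e.hom.hom (e.inv.hom y) = y := by
    have := congrArg (fun f : B ⟶ B => f.hom y) e.inv_hom_id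
    exact this
  rw [← h2, h1, map_zero]

/-- **`H⁰(G_ℚ, N*) = 0`** for `N* = (ad⁰ρ̄).dualTwist (cycloChar p)` (the Poitou–Tate dual). -/
theorem invariants_dualTwist_adBar_eq_bot [Finite k] (hp2 : p ≠ 2)
    (habs : ρbar.IsAbsolutelyIrreducible)
    (hdet : (GaloisRepAdic.ofResidualGaloisRep ρbar).DetIsCyclotomic p)
    (hTW : ∀ (K : Type) [Field K] [Algebra k K]
      (G : Subgroup (AlgebraicClosure ℚ ≃ₐ[ℚ] AlgebraicClosure ℚ)), G.index = 2 →
      ∀ V : Submodule K (ρbar.baseChange K).V,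
        (∀ σ ∈ G, ∀ x ∈ V, (ρbar.baseChange K).ρ σ x ∈ V) → V = ⊥ ∨ V = ⊤) :
    ((adBar p ρbar b).dualTwist (cycloChar p)).ρ.invariants = ⊥ :=
  invariants_eq_bot_of_iso p (adBarTwIso p ρbar b hp2)
    (invariants_adBarTw_eq_bot p ρbar b hp2 habs hdet hTW)

end Inv

/-! ### `Hlc` forms -/

section HlcForms

/-- `finrank (Hlc 𝒰 M 0) = 0` when `M` has no invariants. -/
theorem finrank_hlc_zero_of_invariants_eq_bot {G : Type} [Group G] (𝒰 : LevelSystem G)
    (M : Rep (ZMod p) G) [IsDiscrete 𝒰 M] (hM : M.ρ.invariants = ⊥) :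
    finrank (ZMod p) (Hlc 𝒰 M 0) = 0 := by
  rw [(Hlc0Equiv 𝒰 M).finrank_eq, hM, finrank_bot]

theorem subsingleton_hlc_zero_of_invariants_eq_bot {G : Type} [Group G] (𝒰 : LevelSystem G)
    (M : Rep (ZMod p) G) [IsDiscrete 𝒰 M] (hM : M.ρ.invariants = ⊥) :
    Subsingleton (Hlc 𝒰 M 0) := by
  refine ⟨fun x y => (Hlc0Equiv 𝒰 M).injective ?_⟩
  have hbot : ∀ z : M.ρ.invariants, (z : M) = 0 := fun z => by
    have hz : (z : M) ∈ (⊥ : Submodule (ZMod p) M) := hM ▸ z.2
    exact (Submodule.mem_bot _).1 hz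
  exact Subtype.ext ((hbot _).trans (hbot _).symm)

variable (𝒰 : LevelSystem Fermat.Agent.GC.C0.GQ)

/-- the `hH0` binder of `GP/Core/CoreSel` : `h⁰(G_ℚ, ad⁰ρ̄) = 0`. -/
theorem finrank_hlc_zero_adBar [IsDiscrete 𝒰 (adBar p ρbar b)] (habs : ρbar.IsAbsolutelyIrreducible) (h2 : (2 : k) ≠ 0) :
    finrank (ZMod p) (Hlc 𝒰 (adBar p ρbar b) 0) = 0 :=
  finrank_hlc_zero_of_invariants_eq_bot p 𝒰 _ (invariants_adBar_eq_bot p ρbar b habs h2)

theorem finrank_hlc_zero_adBarTw [IsDiscrete 𝒰 (adBarTw p ρbar b)] (hp2 : p ≠ 2) (habs : ρbar.IsAbsolutelyIrreducible)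
    (hdet : (GaloisRepAdic.ofResidualGaloisRep ρbar).DetIsCyclotomic p)
    (hTW : ∀ (K : Type) [Field K] [Algebra k K]
      (G : Subgroup (AlgebraicClosure ℚ ≃ₐ[ℚ] AlgebraicClosure ℚ)), G.index = 2 →
      ∀ V : Submodule K (ρbar.baseChange K).V,
        (∀ σ ∈ G, ∀ x ∈ V, (ρbar.baseChange K).ρ σ x ∈ V) → V = ⊥ ∨ V = ⊤) :
    finrank (ZMod p) (Hlc 𝒰 (adBarTw p ρbar b) 0) = 0 :=
  finrank_hlc_zero_of_invariants_eq_bot p 𝒰 _
    (invariants_adBarTw_eq_bot p ρbar b hp2 habs hdet hTW)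

/-- `h⁰(G_ℚ, N*) = 0`, `N* = (ad⁰ρ̄).dualTwist (cycloChar p)`. -/
theorem finrank_hlc_zero_dualTwist_adBar [Finite k]
    [IsDiscrete 𝒰 ((adBar p ρbar b).dualTwist (cycloChar p))] (hp2 : p ≠ 2)
    (habs : ρbar.IsAbsolutelyIrreducible)
    (hdet : (GaloisRepAdic.ofResidualGaloisRep ρbar).DetIsCyclotomic p)
    (hTW : ∀ (K : Type) [Field K] [Algebra k K]
      (G : Subgroup (AlgebraicClosure ℚ ≃ₐ[ℚ] AlgebraicClosure ℚ)), G.index = 2 →
      ∀ V : Submodule K (ρbar.baseChange K).V,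
        (∀ σ ∈ G, ∀ x ∈ V, (ρbar.baseChange K).ρ σ x ∈ V) → V = ⊥ ∨ V = ⊤) :
    finrank (ZMod p) (Hlc 𝒰 ((adBar p ρbar b).dualTwist (cycloChar p)) 0) = 0 :=
  finrank_hlc_zero_of_invariants_eq_bot p 𝒰 _
    (invariants_dualTwist_adBar_eq_bot p ρbar b hp2 habs hdet hTW)

end HlcForms

/-! ### Plug test: the `hH0` binder of `GP/Core/CoreSel.selmerBound_base_of_family` -/

example (S : Finset Nat.Primes) (hur : ∀ q : Nat.Primes, q ∉ S → ρbar.IsUnramifiedAt (q : ℕ))
    (habs : ρbar.IsAbsolutelyIrreducible) (h2 : (2 : k) ≠ 0) :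
    haveI := isDiscrete_adBar p ρbar b S hur
    finrank (ZMod p) (Hlc (levelS S) (adBar p ρbar b) 0) = 0 := by
  have := isDiscrete_adBar p ρbar b S hur
  exact finrank_hlc_zero_adBar p ρbar b (levelS S) habs h2

end Fermat.Agent.GP.Bridge.GlobH0Hlc
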